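import Fermat.Agent.LT.T6.H683.DarbouxSpec

/-!
# Row LT, tower T6, leaf T6.22.B.5 `DbDenseC683` (registry 1673; helper319)

OFF-MAIN.  Imports `LT/T6/H683/DarbouxSpec.lean` (helper683@ac6017c1d, byte-identical copy) only.
No definition.

`dbDenseC319 : H683.DbDenseC683`: polynomials in `cosh` with complex coefficients are uniformly
dense, on `[0, R]`, in the functions continuous on `[0, ∞)`.

Proof.  Weierstrass (`exists_polynomial_near_of_continuousOn`) on `[1, cosh R]` for the real and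
the imaginary part of `g ∘ arcosh`, each with `ε / 2`; `arcosh (cosh q) = q` for `q ≥ 0`.
-/

set_option autoImplicit false

open Polynomial

noncomputable section

namespace Fermat.Agent.LT.T6.H319

/-- `g ∘ arcosh` is continuous on `[1, b]`. -/
theorem continuousOn_comp_arcosh319 {g : ℝ → ℂ} (hg : ContinuousOn g (Set.Ici 0)) (b : ℝ) :
    ContinuousOn (fun x => g (Real.arcosh x)) (Set.Icc 1 b) := by
  have h1 : ContinuousOn Real.arcosh (Set.Icc 1 b) :=
    Real.continuousOn_arcosh.mono fun x hx => hx.1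
  exact hg.comp h1 fun x hx => Real.arcosh_nonneg hx.1

/-- Evaluation of a finite sum of monomials with the coefficients of `P`. -/
theorem eval_eq_sum319 (P : ℂ[X]) (z : ℂ) :
    ∑ i ∈ Finset.range (P.natDegree + 1), P.coeff i * z ^ i = P.eval z :=
  (Polynomial.eval_eq_sum_range z).symm

/-- Weierstrass with complex values: a function continuous on `[a, b]` is uniformly
approximated by polynomials with complex coefficients. -/
theorem exists_cpoly_near319 (a b : ℝ) (f : ℝ → ℂ) (hf : ContinuousOn f (Set.Icc a b))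
    (ε : ℝ) (hε : 0 < ε) :
    ∃ P : ℂ[X], ∀ x ∈ Set.Icc a b, ‖f x - P.eval (x : ℂ)‖ ≤ ε := by
  have hre : ContinuousOn (fun x => (f x).re) (Set.Icc a b) :=
    Complex.continuous_re.comp_continuousOn hf
  have him : ContinuousOn (fun x => (f x).im) (Set.Icc a b) :=
    Complex.continuous_im.comp_continuousOn hf
  obtain ⟨p, hp⟩ := exists_polynomial_near_of_continuousOn a b _ hre (ε / 2) (half_pos hε)
  obtain ⟨p', hp'⟩ := exists_polynomial_near_of_continuousOn a b _ him (ε / 2) (half_pos hε)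
  refine ⟨p.map (algebraMap ℝ ℂ) + Polynomial.C Complex.I * p'.map (algebraMap ℝ ℂ), ?_⟩
  intro x hx
  have e1 : (p.map (algebraMap ℝ ℂ)).eval (x : ℂ) = ((p.eval x : ℝ) : ℂ) := by
    rw [Polynomial.eval_map_algebraMap, ← Complex.coe_algebraMap, Polynomial.aeval_algebraMap_apply,
      Polynomial.coe_aeval_eq_eval]
  have e2 : (p'.map (algebraMap ℝ ℂ)).eval (x : ℂ) = ((p'.eval x : ℝ) : ℂ) := by
    rw [Polynomial.eval_map_algebraMap, ← Complex.coe_algebraMap, Polynomial.aeval_algebraMap_apply,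
      Polynomial.coe_aeval_eq_eval]
  rw [Polynomial.eval_add, Polynomial.eval_mul, Polynomial.eval_C, e1, e2]
  have hd : f x - (((p.eval x : ℝ) : ℂ) + Complex.I * ((p'.eval x : ℝ) : ℂ))
      = (((f x).re - p.eval x : ℝ) : ℂ) + (((f x).im - p'.eval x : ℝ) : ℂ) * Complex.I := by
    apply Complex.ext <;> simp
  rw [hd]
  have h1 : ‖(((f x).re - p.eval x : ℝ) : ℂ)‖ ≤ ε / 2 := by
    rw [Complex.norm_real, Real.norm_eq_abs, abs_sub_comm]
    exact (hp x hx).le
  have h2 : ‖(((f x).im - p'.eval x : ℝ) : ℂ) * Complex.I‖ ≤ ε / 2 := by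
    rw [norm_mul, Complex.norm_I, mul_one, Complex.norm_real, Real.norm_eq_abs, abs_sub_comm]
    exact (hp' x hx).le
  calc ‖(((f x).re - p.eval x : ℝ) : ℂ) + (((f x).im - p'.eval x : ℝ) : ℂ) * Complex.I‖
      ≤ ‖(((f x).re - p.eval x : ℝ) : ℂ)‖ + ‖(((f x).im - p'.eval x : ℝ) : ℂ) * Complex.I‖ :=
        norm_add_le _ _
    _ ≤ ε / 2 + ε / 2 := add_le_add h1 h2
    _ = ε := add_halves ε

/-- **Leaf D.5 `DbDenseC683`** (verbatim, `LT/T6/H683/DarbouxSpec.lean`). -/
theorem dbDenseC319 : H683.DbDenseC683 := by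
  intro g hg R ε hR hε
  obtain ⟨P, hP⟩ := exists_cpoly_near319 1 (Real.cosh R) (fun x => g (Real.arcosh x))
    (continuousOn_comp_arcosh319 hg _) ε hε
  refine ⟨P.natDegree + 1, fun i => P.coeff i, ?_⟩
  intro q hq
  have hq1 : Real.cosh q ∈ Set.Icc 1 (Real.cosh R) :=
    ⟨Real.one_le_cosh q, Real.cosh_le_cosh.mpr (by
      rw [abs_of_nonneg hq.1, abs_of_nonneg hR.le]; exact hq.2)⟩
  have h := hP (Real.cosh q) hq1
  simp only [Real.arcosh_cosh hq.1] at h
  have e : ∑ i ∈ Finset.range (P.natDegree + 1), P.coeff i * ((Real.cosh q ^ i : ℝ) : ℂ)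
      = P.eval ((Real.cosh q : ℝ) : ℂ) := by
    rw [← eval_eq_sum319]
    refine Finset.sum_congr rfl fun i _ => ?_
    rw [Complex.ofReal_pow]
  rw [e]
  exact h

end Fermat.Agent.LT.T6.H319

end
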